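import Fermat.Agent.TracePairNF.Generic

/-!
# The traces of two curves over a number field

The pair of the actions on `E[N]` and `E'[N]` gives the joint distribution of `(a_v, a'_v, N v)`
modulo `N`; congruence on a set of density one is congruence at every good place, and for a prime
`N` beyond `4 N v` congruence is equality. An equivariant homomorphism with finite kernel carries
generators of `E[l]` to generators of `E'[l]` for large `l`, so the matrices agree.
-/

set_option autoImplicit false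
set_option linter.unusedSectionVars false

noncomputable section

namespace FA.TracePairNF

open WeierstrassCurve NumberField IsDedekindDomain Matrix Filter Topology FA.IsogenyNF FA.TraceNF
open scoped WeierstrassCurve.Affine Classical

universe u v

variable {K : Type u} [Field K] [NumberField K] {Kb : Type v} [Field Kb] [DecidableEq Kb]
  [Algebra K Kb] [CharZero Kb] [IsAlgClosed Kb] [Algebra.IsAlgebraic K Kb]
  (W₀ W₀' : WeierstrassCurve (𝓞 K)) [(W₀.map (algebraMap (𝓞 K) K)).IsElliptic]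
  [(W₀'.map (algebraMap (𝓞 K) K)).IsElliptic]

local notation "W" => W₀.map (algebraMap (𝓞 K) K)
local notation "W'" => W₀'.map (algebraMap (𝓞 K) K)

/-- The common layer of two levels. -/
abbrev pairField (N : ℕ) : IntermediateField K Kb :=
  levelField Kb (W) N ⊔ levelField Kb (W') N

theorem pairField_facts {N : ℕ} (hN : N ≠ 0) :
    FiniteDimensional K (pairField (Kb := Kb) W₀ W₀' N) ∧
      IsGalois K (pairField (Kb := Kb) W₀ W₀' N) ∧
      NumberField (pairField (Kb := Kb) W₀ W₀' N) := by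
  have := finiteDimensional_levelField (Kb := Kb) (W) hN
  have := finiteDimensional_levelField (Kb := Kb) (W') hN
  have := isGalois_levelField (Kb := Kb) (W) N
  have := isGalois_levelField (Kb := Kb) (W') N
  have hfd : FiniteDimensional K (pairField (Kb := Kb) W₀ W₀' N) :=
    IntermediateField.finiteDimensional_sup _ _
  have : Normal K (pairField (Kb := Kb) W₀ W₀' N) := IntermediateField.normal_sup K Kb _ _
  exact ⟨hfd, ⟨⟩, NumberField.of_module_finite K _⟩

/-- The places bad for either equation or over `N`. -/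
def badSet (N : ℕ) : Set (HeightOneSpectrum (𝓞 K)) :=
  {v | W₀.Δ ∈ v.asIdeal} ∪ {v | W₀'.Δ ∈ v.asIdeal} ∪ {v | (N : 𝓞 K) ∈ v.asIdeal}

theorem finite_badSet {N : ℕ} (hN : N ≠ 0) : (badSet W₀ W₀' N).Finite :=
  ((finite_mem (Δ_ne_zero W₀)).union (finite_mem (Δ_ne_zero W₀'))).union
    (finite_mem (Nat.cast_ne_zero.2 hN))

theorem not_mem_badSet {N : ℕ} {v : HeightOneSpectrum (𝓞 K)} :
    v ∉ badSet W₀ W₀' N ↔
      W₀.Δ ∉ v.asIdeal ∧ W₀'.Δ ∉ v.asIdeal ∧ (N : 𝓞 K) ∉ v.asIdeal := by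
  simp [badSet, not_or, and_assoc]

variable {N : ℕ} (hN : N ≠ 0)

section

variable {P Q : ((W₀.map (algebraMap (𝓞 K) K)).toAffine⁄Kb).Point}
  {P' Q' : ((W₀'.map (algebraMap (𝓞 K) K)).toAffine⁄Kb).Point}
  (h : TorGen (W₀.map (algebraMap (𝓞 K) K)) N P Q)
  (h' : TorGen (W₀'.map (algebraMap (𝓞 K) K)) N P' Q')

/-- The pair of the actions. -/
def pairHom : (Kb ≃ₐ[K] Kb) →* GL (Fin 2) (ZMod N) × GL (Fin 2) (ZMod N) :=
  MonoidHom.prod (TorGen.rep (E := W) h hN).toHomUnits (TorGen.rep (E := W') h' hN).toHomUnits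

theorem fixingSubgroup_pairField :
    (pairField (Kb := Kb) W₀ W₀' N).fixingSubgroup = (pairHom W₀ W₀' hN h h').ker := by
  rw [pairField, IntermediateField.fixingSubgroup_sup, pairHom, MonoidHom.ker_prod,
    KatzNF.fixingSubgroup_levelField W₀ hN h, KatzNF.fixingSubgroup_levelField W₀' hN h']

/-- **At a good place** a Frobenius element has both traces and the determinant. -/
theorem frob_pair {v : HeightOneSpectrum (𝓞 K)} (hv : v ∉ badSet W₀ W₀' N)
    [NumberField (pairField (Kb := Kb) W₀ W₀' N)] [IsGalois K (pairField (Kb := Kb) W₀ W₀' N)]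
    {Q₀ : Ideal (𝓞 (pairField (Kb := Kb) W₀ W₀' N))} (hQ : Q₀.IsMaximal)
    (hQv : Q₀.under (𝓞 K) = v.asIdeal) {τ} (hτ : IsArithFrobAt (𝓞 K) τ Q₀) {σ : Kb ≃ₐ[K] Kb}
    (hσ : AlgEquiv.restrictNormalHom (F := K) (pairField (Kb := Kb) W₀ W₀' N) σ = τ) :
    (h.rep hN σ).trace = (frobTrace W₀ v : ZMod N) ∧
      (h'.rep hN σ).trace = (frobTrace W₀' v : ZMod N) ∧
      (h.rep hN σ).det = (Ideal.absNorm v.asIdeal : ZMod N) := by
  obtain ⟨h1, h2, h3⟩ := (not_mem_badSet W₀ W₀').1 hv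
  have a := KatzNF.frob_matrix W₀ hN h h1 h3 (fun x hx => (le_sup_left :
    levelField Kb (W) N ≤ pairField (Kb := Kb) W₀ W₀' N)
    (IntermediateField.subset_adjoin K _ hx)) hQ hQv hτ hσ
  have b := KatzNF.frob_matrix W₀' hN h' h2 h3 (fun x hx => (le_sup_right :
    levelField Kb (W') N ≤ pairField (Kb := Kb) W₀ W₀' N)
    (IntermediateField.subset_adjoin K _ hx)) hQ hQv hτ hσ
  exact ⟨a.1, b.1, a.2⟩

/-- The residues attached to a pair of matrices. -/
def resid (g : GL (Fin 2) (ZMod N) × GL (Fin 2) (ZMod N)) : ZMod N × ZMod N × ZMod N :=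
  (g.1.val.trace, g.2.val.trace, g.1.val.det)

theorem resid_conj (g x : GL (Fin 2) (ZMod N) × GL (Fin 2) (ZMod N)) :
    resid (x * g * x⁻¹) = resid g := by
  simp only [resid, Prod.fst_mul, Prod.snd_mul, Prod.fst_inv, Prod.snd_inv, Units.val_mul,
    Matrix.trace_units_conj, Matrix.det_units_conj]

/-- **The joint distribution** of `(a_v, a'_v, N v)` modulo `N`. -/
theorem tendsto_pair (T : Set (ZMod N × ZMod N × ZMod N)) :
    Tendsto (placeRatio fun v => ((frobTrace W₀ v : ZMod N), (frobTrace W₀' v : ZMod N),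
        (Ideal.absNorm v.asIdeal : ZMod N)) ∈ T) atTop
      (𝓝 ((Nat.card {g : (pairHom W₀ W₀' hN h h').range // resid g.1 ∈ T} : ℝ) /
        Nat.card (pairHom W₀ W₀' hN h h').range)) := by
  obtain ⟨hfd, hgal, hnf⟩ := pairField_facts (Kb := Kb) W₀ W₀' hN
  refine tendsto_of_hom _ (pairHom W₀ W₀' hN h h') (fixingSubgroup_pairField W₀ W₀' hN h h')
    {g | resid g ∈ T} (fun g hg x _ => by rw [Set.mem_ofPred_eq, resid_conj]; exact hg) _
    (finite_badSet W₀ W₀' hN) fun v hv Q₀ hQ hQv τ hτ σ hσ => ?_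
  obtain ⟨a, b, c⟩ := frob_pair W₀ W₀' hN h h' hv hQ hQv hτ hσ
  show ((h.rep hN σ).trace, (h'.rep hN σ).trace, (h.rep hN σ).det) ∈ T ↔ _
  rw [a, b, c]

/-- **Equal traces of the matrices give congruent traces at every good place.** -/
theorem congr_of_trace_eq (heq : ∀ σ : Kb ≃ₐ[K] Kb, (h.rep hN σ).trace = (h'.rep hN σ).trace)
    {v : HeightOneSpectrum (𝓞 K)} (hv : v ∉ badSet W₀ W₀' N) :
    (frobTrace W₀ v : ZMod N) = frobTrace W₀' v := by
  obtain ⟨hfd, hgal, hnf⟩ := pairField_facts (Kb := Kb) W₀ W₀' hN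
  have : IsAlgClosure K Kb := ⟨inferInstance, inferInstance⟩
  have : IsGalois K Kb := IsAlgClosure.isGalois K Kb
  obtain ⟨Q₀, hQ, hQv, τ, hτ⟩ :=
    FA.Chebotarev.exists_isArithFrobAt (L := pairField (Kb := Kb) W₀ W₀' N) v
  obtain ⟨σ, hσ⟩ := AlgEquiv.restrictNormalHom_surjective (F := K)
    (K₁ := pairField (Kb := Kb) W₀ W₀' N) Kb τ
  obtain ⟨a, b, -⟩ := frob_pair W₀ W₀' hN h h' hv hQ hQv hτ hσ
  rw [← a, ← b, heq]

/-- **Congruence on a set of density one gives equal traces of all matrices.** -/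
theorem trace_eq_of_tendsto_one
    (h1 : Tendsto (placeRatio fun v => (frobTrace W₀ v : ZMod N) = frobTrace W₀' v) atTop (𝓝 1))
    (σ : Kb ≃ₐ[K] Kb) : (h.rep hN σ).trace = (h'.rep hN σ).trace := by
  have : NeZero N := ⟨hN⟩
  obtain ⟨hfd, hgal, hnf⟩ := pairField_facts (Kb := Kb) W₀ W₀' hN
  exact mem_of_tendsto_one _ (pairHom W₀ W₀' hN h h') (fixingSubgroup_pairField W₀ W₀' hN h h')
    {g | g.1.val.trace = g.2.val.trace} (fun g hg x _ => by
      simp only [Set.mem_ofPred_eq, Prod.fst_mul, Prod.snd_mul, Prod.fst_inv, Prod.snd_inv,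
        Units.val_mul, Matrix.trace_units_conj] at hg ⊢
      exact hg) _
    (finite_badSet W₀ W₀' hN) (fun v hv Q₀ hQ hQv τ hτ σ' hσ => by
      obtain ⟨a, b, -⟩ := frob_pair W₀ W₀' hN h h' hv hQ hQv hτ hσ
      show (h.rep hN σ').trace = (h'.rep hN σ').trace ↔ _
      rw [a, b]) h1 σ

end

/-- A prime beyond `4 N v` separates the traces at `v`. -/
theorem eq_of_congr_large {v : HeightOneSpectrum (𝓞 K)} (h1 : W₀.Δ ∉ v.asIdeal)
    (h2 : W₀'.Δ ∉ v.asIdeal) {l : ℕ} (hl : 4 * Ideal.absNorm v.asIdeal < l)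
    (hcongr : (frobTrace W₀ v : ZMod l) = frobTrace W₀' v) :
    frobTrace W₀ v = frobTrace W₀' v := by
  rw [ZMod.intCast_eq_intCast_iff_dvd_sub] at hcongr
  have ha := frobTrace_sq_le W₀ h1
  have hb := frobTrace_sq_le W₀' h2
  have hl' : 4 * (Ideal.absNorm v.asIdeal : ℤ) < l := by exact_mod_cast hl
  have hq : (0 : ℤ) ≤ Ideal.absNorm v.asIdeal := Int.natCast_nonneg _
  by_contra hne
  have hle := Int.le_of_dvd (abs_pos.2 (sub_ne_zero.2 (Ne.symm hne))) ((dvd_abs _ _).2 hcongr)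
  have hsq : (4 * (Ideal.absNorm v.asIdeal : ℤ) + 1) ^ 2 ≤
      |frobTrace W₀' v - frobTrace W₀ v| ^ 2 :=
    pow_le_pow_left₀ (by omega) (by omega) 2
  rw [sq_abs] at hsq
  nlinarith [sq_nonneg (frobTrace W₀' v + frobTrace W₀ v),
    mul_nonneg hq (sub_nonneg.2 (show (1 : ℤ) ≤ Ideal.absNorm v.asIdeal by
      exact_mod_cast Nat.pos_of_ne_zero fun e => v.ne_bot (Ideal.absNorm_eq_zero_iff.1 e)))]

/-- A large prime is outside `v`. -/
theorem not_mem_of_large {v : HeightOneSpectrum (𝓞 K)} {l : ℕ} (hl : l.Prime)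
    (hlt : 4 * Ideal.absNorm v.asIdeal < l) : (l : 𝓞 K) ∉ v.asIdeal := fun hmem => by
  have hpos : 0 < Ideal.absNorm v.asIdeal :=
    Nat.pos_of_ne_zero fun e => v.ne_bot (Ideal.absNorm_eq_zero_iff.1 e)
  have hcop : l.Coprime (Ideal.absNorm v.asIdeal) :=
    hl.coprime_iff_not_dvd.2 fun hd => absurd (Nat.le_of_dvd hpos hd) (by omega)
  obtain ⟨a, b, hab⟩ := Nat.isCoprime_iff_coprime.2 hcop
  refine v.isPrime.ne_top ((Ideal.eq_top_iff_one _).2 ?_)
  have e : ((a * (l : ℤ) + b * (Ideal.absNorm v.asIdeal : ℤ) : ℤ) : 𝓞 K) = 1 := by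
    rw [hab, Int.cast_one]
  rw [← e]
  push_cast
  exact Ideal.add_mem _ (Ideal.mul_mem_left _ _ hmem)
    (Ideal.mul_mem_left _ _ (Ideal.absNorm_mem v.asIdeal))

/-- **An equivariant homomorphism with finite kernel gives equal traces of matrices** modulo every
prime beyond its kernel. -/
theorem exists_equal_reps (f : ((W).toAffine⁄Kb).Point →+ ((W').toAffine⁄Kb).Point)
    [hfin : Finite f.ker] (hf : ∀ (σ : Kb ≃ₐ[K] Kb) (R : ((W).toAffine⁄Kb).Point),
      f (σ • R) = σ • f R) {l : ℕ} (hl : l.Prime) (hlt : Nat.card f.ker < l) :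
    ∃ (P Q : ((W).toAffine⁄Kb).Point) (P' Q' : ((W').toAffine⁄Kb).Point)
      (h : TorGen (W) l P Q) (h' : TorGen (W') l P' Q'),
        ∀ σ : Kb ≃ₐ[K] Kb, h'.rep hl.ne_zero σ = h.rep hl.ne_zero σ := by
  have hl0 := hl.ne_zero
  obtain ⟨P, Q, h⟩ := exists_torGen_level (E := W) (Kb := Kb) hl0
  have : Finite {R : ((W').toAffine⁄Kb).Point // l • R = 0} := Nat.finite_of_card_ne_zero
    (by rw [TorGen.natCard (E := W') hl0]; exact pow_ne_zero 2 hl0)
  have : NeZero l := ⟨hl0⟩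
  let φ : (Fin 2 → ZMod l) → {R : ((W').toAffine⁄Kb).Point // l • R = 0} := fun u =>
    ⟨f (h.coord u), by rw [← map_nsmul, h.nsmul_coord, map_zero]⟩
  have hφ : Function.Bijective φ := (Nat.bijective_iff_injective_and_card φ).2 ⟨fun a b e => by
    have e' : f (h.coord (a - b)) = 0 := by
      rw [map_sub, map_sub, sub_eq_zero]
      exact congrArg Subtype.val e
    have hk := addOrderOf_dvd_of_nsmul_eq_zero (h.nsmul_coord (a - b))
    have hc : addOrderOf (h.coord (a - b)) ∣ Nat.card f.ker := by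
      have := addOrderOf_dvd_natCard (⟨h.coord (a - b), e'⟩ : f.ker)
      rwa [← AddSubgroup.addOrderOf_coe] at this
    have hcop : l.Coprime (Nat.card f.ker) := hl.coprime_iff_not_dvd.2 fun hd =>
      absurd (Nat.le_of_dvd Nat.card_pos hd) (by omega)
    have h1 := Nat.eq_one_of_dvd_coprimes hcop hk hc
    rw [AddMonoid.addOrderOf_eq_one_iff] at h1
    exact sub_eq_zero.1 (h.coord_injective hl0 (h1.trans (map_zero _).symm)),
    by rw [TorGen.natCard (E := W') hl0, Nat.card_fun, Nat.card_zmod, Nat.card_fin]⟩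
  have h' : TorGen (W') l (f P) (f Q) :=
    ⟨by rw [← map_nsmul, h.left, map_zero], by rw [← map_nsmul, h.right, map_zero],
      fun R hR => by
        obtain ⟨u, hu⟩ := hφ.2 ⟨R, hR⟩
        obtain ⟨i, j, e⟩ := h.span (h.coord u) (h.nsmul_coord u)
        refine ⟨i, j, ?_⟩
        rw [show R = f (h.coord u) from (congrArg Subtype.val hu).symm, e, map_add, map_zsmul,
          map_zsmul]⟩
  refine ⟨P, Q, f P, f Q, h, h', fun σ =>
    Matrix.ext_of_mulVec_single fun i => h'.coord_injective hl0 ?_⟩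
  have hcoord : ∀ u, h'.coord u = f (h.coord u) := fun u => by
    obtain ⟨a, ha⟩ := ZMod.intCast_surjective (u 0)
    obtain ⟨b, hb⟩ := ZMod.intCast_surjective (u 1)
    have hu : u = ![(a : ZMod l), (b : ZMod l)] := funext fun s => by
      fin_cases s <;> simp [ha, hb]
    rw [hu, h.coord_intCast, h'.coord_intCast, map_add, map_zsmul, map_zsmul]
  rw [← h'.rep_spec, hcoord, hcoord, ← hf, h.rep_spec]

end FA.TracePairNF

end
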