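import Fermat.Agent.KatzNF.Frobenius

/-!
# Densities of places from a homomorphism out of Galois

For a finite Galois layer `L` and a homomorphism `ψ` of the absolute Galois group with kernel the
automorphisms fixing `L`, the places whose Frobenius elements have `ψ` in a set closed under
conjugation by the image have natural density its proportion in the image.
-/

set_option autoImplicit false
set_option linter.unusedSectionVars false

noncomputable section

namespace FA.TracePairNF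

open NumberField IsDedekindDomain Filter Topology FA.Hecke FA.NaturalChebotarev FA.TraceNF
open scoped Classical

universe u v w

variable {K : Type u} [Field K] [NumberField K]

/-- The proportion of the places up to `x` with the property `P`. -/
def placeRatio (P : HeightOneSpectrum (𝓞 K) → Prop) (x : ℝ) : ℝ :=
  (Nat.card {v : HeightOneSpectrum (𝓞 K) // (Ideal.absNorm v.asIdeal : ℝ) ≤ x ∧ P v} : ℝ) /
    Nat.card {v : HeightOneSpectrum (𝓞 K) // (Ideal.absNorm v.asIdeal : ℝ) ≤ x}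

/-- There are finitely many places up to a bound. -/
theorem finite_places_le (x : ℝ) :
    {v : HeightOneSpectrum (𝓞 K) | (Ideal.absNorm v.asIdeal : ℝ) ≤ x}.Finite := by
  refine ((Ideal.finite_setOfPred_absNorm_le (S := 𝓞 K) ⌊x⌋₊).preimage
    (f := fun v : HeightOneSpectrum (𝓞 K) => v.asIdeal)
    (fun a _ b _ h => HeightOneSpectrum.ext h)).subset fun v hv => ?_
  exact Nat.le_floor hv

/-- The proportion is monotone in the property. -/
theorem placeRatio_mono {P P' : HeightOneSpectrum (𝓞 K) → Prop} (h : ∀ v, P v → P' v) (x : ℝ) :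
    placeRatio P x ≤ placeRatio P' x := by
  have := (finite_places_le (K := K) x).to_subtype
  have : Finite {v : HeightOneSpectrum (𝓞 K) // (Ideal.absNorm v.asIdeal : ℝ) ≤ x ∧ P' v} :=
    Finite.of_injective (fun v => (⟨v.1, v.2.1⟩ :
      {v : HeightOneSpectrum (𝓞 K) | (Ideal.absNorm v.asIdeal : ℝ) ≤ x}))
      fun a b e => Subtype.ext (congrArg Subtype.val e :)
  refine div_le_div_of_nonneg_right (Nat.cast_le.2 (Nat.card_le_card_of_injective
    (fun v => ⟨v.1, v.2.1, h _ v.2.2⟩) fun a b e => Subtype.ext (congrArg Subtype.val e :)))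
    (Nat.cast_nonneg _)

/-- The proportion is at most one. -/
theorem placeRatio_le_one (P : HeightOneSpectrum (𝓞 K) → Prop) (x : ℝ) :
    placeRatio P x ≤ 1 := by
  have : Finite {v : HeightOneSpectrum (𝓞 K) // (Ideal.absNorm v.asIdeal : ℝ) ≤ x} :=
    (finite_places_le (K := K) x).to_subtype
  refine div_le_one_of_le₀ (Nat.cast_le.2 (Nat.card_le_card_of_injective
    (fun v => (⟨v.1, v.2.1⟩ :
      {v : HeightOneSpectrum (𝓞 K) // (Ideal.absNorm v.asIdeal : ℝ) ≤ x}))
    fun a b e => Subtype.ext (congrArg Subtype.val e :))) (Nat.cast_nonneg _)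

/-- A weaker property keeps density one. -/
theorem tendsto_one_mono {P P' : HeightOneSpectrum (𝓞 K) → Prop} (h : ∀ v, P v → P' v)
    (h1 : Tendsto (placeRatio P) atTop (𝓝 1)) : Tendsto (placeRatio P') atTop (𝓝 1) :=
  tendsto_of_tendsto_of_tendsto_of_le_of_le h1 tendsto_const_nhds (placeRatio_mono h)
    (placeRatio_le_one P')

/-- Almost all places give density one. -/
theorem tendsto_one_of_finite {P : HeightOneSpectrum (𝓞 K) → Prop}
    (h : {v | ¬ P v}.Finite) : Tendsto (placeRatio P) atTop (𝓝 1) := by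
  refine tendsto_ratio_dec _ (d := fun v => Classical.propDecidable _) ?_
  refine hasMean_congr _ h (B := 1) (fun v => by split_ifs <;> norm_num) (fun v hv _ => ?_)
    (hasMean_one K)
  simp only [Set.mem_ofPred_eq, not_not] at hv
  rw [if_pos hv]

variable {Kb : Type v} [Field Kb] [Algebra K Kb] [CharZero Kb] [IsAlgClosed Kb]
  [Algebra.IsAlgebraic K Kb]

/-- **The density attached to a homomorphism.** -/
theorem tendsto_of_hom (L : IntermediateField K Kb) [NumberField L] [IsGalois K L]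
    {G : Type w} [Group G] (ψ : (Kb ≃ₐ[K] Kb) →* G) (hker : L.fixingSubgroup = ψ.ker) (S : Set G)
    (hS : ∀ g ∈ S, ∀ x ∈ ψ.range, x * g * x⁻¹ ∈ S) (P : HeightOneSpectrum (𝓞 K) → Prop)
    {bad : Set (HeightOneSpectrum (𝓞 K))} (hbad : bad.Finite)
    (hP : ∀ v ∉ bad, ∀ (Q : Ideal (𝓞 L)), Q.IsMaximal → Q.under (𝓞 K) = v.asIdeal →
      ∀ τ : L ≃ₐ[K] L, IsArithFrobAt (𝓞 K) τ Q → ∀ σ : Kb ≃ₐ[K] Kb,
        AlgEquiv.restrictNormalHom (F := K) L σ = τ → (ψ σ ∈ S ↔ P v)) :
    Tendsto (placeRatio P) atTop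
      (𝓝 ((Nat.card {g : ψ.range // (g : G) ∈ S} : ℝ) / Nat.card ψ.range)) := by
  have : IsAlgClosure K Kb := ⟨inferInstance, inferInstance⟩
  have : IsGalois K Kb := IsAlgClosure.isGalois K Kb
  let res : (Kb ≃ₐ[K] Kb) →* (L ≃ₐ[K] L) := AlgEquiv.restrictNormalHom L
  have hres : Function.Surjective res := AlgEquiv.restrictNormalHom_surjective Kb
  have hker' : res.ker = ψ.rangeRestrict.ker :=
    ((IntermediateField.restrictNormalHom_ker _).trans hker).trans ψ.ker_rangeRestrict.symm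
  let e := ((QuotientGroup.quotientKerEquivOfSurjective res hres).symm.trans
    (QuotientGroup.quotientMulEquivOfEq hker')).trans
      (QuotientGroup.quotientKerEquivOfSurjective ψ.rangeRestrict ψ.rangeRestrict_surjective)
  have he : ∀ σ, e (res σ) = ψ.rangeRestrict σ := fun σ => by
    have h1 : (QuotientGroup.quotientKerEquivOfSurjective res hres).symm (res σ) =
        (σ : (Kb ≃ₐ[K] Kb) ⧸ res.ker) := by
      rw [MulEquiv.symm_apply_eq]; rfl
    simp only [e, MulEquiv.trans_apply, h1]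
    rfl
  set C : Set (L ≃ₐ[K] L) := {τ | (e τ : G) ∈ S}
  have hC : ∀ g ∈ C, ∀ x, x * g * x⁻¹ ∈ C := fun g hg x => by
    show (e (x * g * x⁻¹) : G) ∈ S
    rw [map_mul, map_mul, map_inv, Subgroup.coe_mul, Subgroup.coe_mul, Subgroup.coe_inv]
    exact hS _ hg _ (e x).2
  have hcard : (Nat.card C : ℝ) / Nat.card (L ≃ₐ[K] L) =
      (Nat.card {g : ψ.range // (g : G) ∈ S} : ℝ) / Nat.card ψ.range := by
    rw [Nat.card_congr e.toEquiv]
    congr 2
    exact Nat.card_congr (e.toEquiv.subtypeEquiv fun τ => Iff.rfl)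
  have hm := hasMean_someFrobSet C hC
  rw [hcard] at hm
  refine tendsto_ratio_dec _ (d := fun v => Classical.propDecidable _) ?_
  refine hasMean_congr bad hbad (B := 1) (fun v => by split_ifs <;> norm_num)
    (fun v hv _ => ?_) hm
  refine if_congr ⟨fun hPv => ?_, ?_⟩ rfl rfl
  · obtain ⟨Q, hQ, hQv, τ, hτ⟩ := FA.Chebotarev.exists_isArithFrobAt (L := L) v
    obtain ⟨σ, hσ⟩ := hres τ
    refine ⟨Q, hQ, hQv, τ, ?_, hτ⟩
    show (e τ : G) ∈ S
    rw [← hσ, he]
    exact (hP v hv Q hQ hQv τ hτ σ hσ).2 hPv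
  · rintro ⟨Q, hQ, hQv, τ, hτC, hτ⟩
    obtain ⟨σ, hσ⟩ := hres τ
    change (e τ : G) ∈ S at hτC
    rw [← hσ, he] at hτC
    exact (hP v hv Q hQ hQv τ hτ σ hσ).1 hτC

/-- Density one puts the whole image in `S`. -/
theorem mem_of_tendsto_one (L : IntermediateField K Kb) [NumberField L] [IsGalois K L]
    {G : Type w} [Group G] (ψ : (Kb ≃ₐ[K] Kb) →* G) (hker : L.fixingSubgroup = ψ.ker) (S : Set G)
    (hS : ∀ g ∈ S, ∀ x ∈ ψ.range, x * g * x⁻¹ ∈ S) (P : HeightOneSpectrum (𝓞 K) → Prop)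
    {bad : Set (HeightOneSpectrum (𝓞 K))} (hbad : bad.Finite)
    (hP : ∀ v ∉ bad, ∀ (Q : Ideal (𝓞 L)), Q.IsMaximal → Q.under (𝓞 K) = v.asIdeal →
      ∀ τ : L ≃ₐ[K] L, IsArithFrobAt (𝓞 K) τ Q → ∀ σ : Kb ≃ₐ[K] Kb,
        AlgEquiv.restrictNormalHom (F := K) L σ = τ → (ψ σ ∈ S ↔ P v))
    [Finite G] (h1 : Tendsto (placeRatio P) atTop (𝓝 1)) (σ : Kb ≃ₐ[K] Kb) : ψ σ ∈ S := by
  have e := tendsto_nhds_unique (tendsto_of_hom L ψ hker S hS P hbad hP) h1
  rw [div_eq_one_iff_eq (Nat.cast_ne_zero.2 Nat.card_pos.ne'), Nat.cast_inj] at e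
  obtain ⟨g, hg⟩ := ((Nat.bijective_iff_injective_and_card _).2
    ⟨Subtype.val_injective (p := fun g : ψ.range => (g : G) ∈ S), e⟩).2 ⟨ψ σ, σ, rfl⟩
  have hg2 := g.2
  rw [hg] at hg2
  exact hg2

end FA.TracePairNF

end
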